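import Mathlib

/-!
# The prime zeta function

For `1 < re s`: `∑ log p / p^s = ∑ μ n (-ζ'/ζ) (n s)`, and the right side is meromorphic on
`0 < re s`.
-/

set_option autoImplicit false

noncomputable section

namespace FA.PrimeZeta

open Complex Filter Topology ArithmeticFunction
open scoped ArithmeticFunction.Moebius ArithmeticFunction.vonMangoldt ArithmeticFunction.zeta

/-- The prime zeta function `∑ p^(-s)`. -/
def primeP (s : ℂ) : ℂ := ∑' p : Nat.Primes, (p : ℂ) ^ (-s)

/-- `-ζ'/ζ`. -/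
def negLog (w : ℂ) : ℂ := -deriv riemannZeta w / riemannZeta w

/-- The continuation of the derivative of `primeP`. -/
def contP (s : ℂ) : ℂ := -∑' n : ℕ, (μ n : ℂ) * negLog (n * s)

theorem cpow_neg_mul_nat (p k : ℕ) (w : ℂ) :
    ((p ^ k : ℕ) : ℂ) ^ (-w) = ((p : ℂ) ^ (-w)) ^ k := by
  rw [Nat.cast_pow, ← natCast_cpow_natCast_mul, cpow_nat_mul]

theorem norm_prime_cpow (p : Nat.Primes) (s : ℂ) :
    ‖(p : ℂ) ^ (-s)‖ = ((p : ℕ) : ℝ) ^ (-s.re) := by
  rw [norm_natCast_cpow_of_pos p.2.pos, neg_re]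

theorem negLog_eq {w : ℂ} (hw : 1 < w.re) :
    LSeries (fun n => (vonMangoldt n : ℂ)) w = negLog w :=
  LSeries_vonMangoldt_eq_deriv_riemannZeta_div hw

/-- `-ζ'/ζ` as a sum over prime powers. -/
theorem hasSum_negLog {w : ℂ} (hw : 1 < w.re) :
    HasSum (fun c : Nat.Primes × ℕ => (Real.log (c.1 : ℕ) : ℂ) * ((c.1 : ℂ) ^ (-w)) ^ (c.2 + 1))
      (negLog w) := by
  have h := (LSeriesSummable_vonMangoldt hw).LSeriesHasSum
  rw [LSeriesHasSum] at h
  have e : LSeries (fun n => (vonMangoldt n : ℂ)) w = negLog w := negLog_eq hw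
  rw [e] at h
  have hinj : Function.Injective fun c : Nat.Primes × ℕ => (c.1 : ℕ) ^ (c.2 + 1) :=
    Subtype.val_injective.comp Nat.Primes.prodNatEquiv.injective
  have h2 := (hinj.hasSum_iff fun n hn => ?_).2 h
  · refine h2.congr_fun fun c => ?_
    rw [Function.comp_apply, LSeries.term_of_ne_zero' (fun h => by rw [h, zero_re] at hw; linarith),
      vonMangoldt_apply_pow c.2.succ_ne_zero, vonMangoldt_apply_prime c.1.2, div_eq_mul_inv,
      ← cpow_neg, cpow_neg_mul_nat]
  · have h0 : ¬ IsPrimePow n := fun hpp =>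
      hn ⟨Nat.Primes.prodNatEquiv.symm ⟨n, hpp⟩, congrArg Subtype.val
        (Nat.Primes.prodNatEquiv.apply_symm_apply ⟨n, hpp⟩)⟩
    simp [LSeries.term, vonMangoldt_eq_zero_iff.2 h0]

theorem summable_log_prime {σ : ℝ} (hσ : 1 < σ) :
    Summable fun p : Nat.Primes => Real.log (p : ℕ) * ((p : ℕ) : ℝ) ^ (-σ) := by
  have h := (hasSum_negLog (w := (σ : ℂ)) (by simpa using hσ)).summable.norm
  have h2 := h.comp_injective (i := fun p : Nat.Primes => (p, 0)) fun a b h => (Prod.ext_iff.1 h).1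
  refine h2.congr fun p => ?_
  simp only [Function.comp_apply, zero_add, pow_one, norm_mul, norm_real, norm_prime_cpow,
    ofReal_re, Real.norm_eq_abs, abs_of_nonneg (Real.log_natCast_nonneg _)]

/-- The Lambert series of the Möbius function. -/
theorem hasSum_moebius_lambert {x : ℂ} (hx : ‖x‖ < 1) :
    HasSum (fun c : ℕ+ × ℕ+ => (μ c.1 : ℂ) * x ^ ((c.1 : ℕ) * c.2)) x := by
  have hs : Summable fun c : ℕ+ × ℕ+ => (μ c.1 : ℂ) * x ^ ((c.1 : ℕ) * c.2) := by
    have h0 : Summable fun c : ℕ+ × ℕ+ => ‖x‖ ^ ((c.1 : ℕ) * c.2) := by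
      simpa using summable_prod_mul_pow 0 (r := ‖x‖) (by simpa using hx)
    refine Summable.of_norm_bounded h0 fun c => ?_
    rw [norm_mul, norm_pow]
    refine mul_le_of_le_one_left (by positivity) ?_
    rw [Complex.norm_intCast]
    exact_mod_cast abs_moebius_le_one
  obtain ⟨S, hS⟩ := hs
  have h1 := sigmaAntidiagonalEquivProd.hasSum_iff.mpr hS
  have h2 : HasSum (fun n : ℕ+ => if n = 1 then x else 0) S := by
    refine h1.sigma fun n => ?_
    simp only [Function.comp_def, sigmaAntidiagonalEquivProd, divisorsAntidiagonalFactors,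
      Equiv.coe_fn_mk, PNat.mk_coe]
    convert hasSum_fintype (fun c : (n : ℕ).divisorsAntidiagonal =>
      (μ c.1.1 : ℂ) * x ^ (c.1.1 * c.1.2)) using 1
    rw [Finset.univ_eq_attach, Finset.sum_attach _ (fun c : ℕ × ℕ => (μ c.1 : ℂ) * x ^ (c.1 * c.2)),
      Finset.sum_congr rfl fun c hc => by rw [(Nat.mem_divisorsAntidiagonal.mp hc).1],
      Nat.sum_divisorsAntidiagonal (fun d _ => (μ d : ℂ) * x ^ (n : ℕ)), ← Finset.sum_mul]
    have hm : ((μ : ArithmeticFunction ℤ) * ↑ζ) (n : ℕ) = (1 : ArithmeticFunction ℤ) (n : ℕ) := by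
      rw [moebius_mul_coe_zeta]
    rw [coe_mul_zeta_apply, one_apply] at hm
    rw [← Int.cast_sum, hm]
    by_cases h : n = 1
    · simp [h]
    · have : (n : ℕ) ≠ 1 := fun e => h (PNat.coe_inj.1 (by simpa using e))
      simp [h, this]
  rw [h2.unique (hasSum_ite_eq 1 x)] at hS
  exact hS

/-- The Möbius inversion `∑ log p / p^s = ∑ μ n (-ζ'/ζ) (n s)`. -/
theorem hasSum_moebius_negLog {s : ℂ} (hs : 1 < s.re) :
    HasSum (fun n : ℕ => (μ n : ℂ) * negLog (n * s))
      (∑' p : Nat.Primes, (Real.log (p : ℕ) : ℂ) * (p : ℂ) ^ (-s)) := by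
  have hr : ∀ p : Nat.Primes, ‖(p : ℂ) ^ (-s)‖ ≤ 1 / 2 := fun p => by
    rw [norm_prime_cpow, Real.rpow_neg (Nat.cast_nonneg _), one_div]
    refine inv_anti₀ two_pos ((Nat.ofNat_le_cast.2 p.2.two_le).trans ?_)
    conv_lhs => rw [← Real.rpow_one ((p : ℕ) : ℝ)]
    exact Real.rpow_le_rpow_of_exponent_le (by exact_mod_cast p.2.one_le) hs.le
  obtain ⟨F, hF⟩ : ∃ F : Nat.Primes × ℕ+ × ℕ+ → ℂ,
      F = fun t => (Real.log (t.1 : ℕ) : ℂ) *
        ((μ t.2.1 : ℂ) * ((t.1 : ℂ) ^ (-s)) ^ ((t.2.1 : ℕ) * t.2.2)) := ⟨_, rfl⟩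
  have hsum : Summable F := by
    have hg : Summable fun k : ℕ+ => (1 / 2 : ℝ) ^ ((k : ℕ) - 1) :=
      (summable_geometric_two.comp_injective (i := fun k : ℕ+ => (k : ℕ) - 1) fun a b h =>
        PNat.coe_injective (by have := a.pos; have := b.pos; simp only at h; omega))
    have hb := (summable_log_prime hs).mul_of_nonneg (hg.mul_of_nonneg hg (fun _ => by positivity)
      fun _ => by positivity) (fun p => by positivity) fun _ => by positivity
    refine Summable.of_norm_bounded hb fun ⟨p, d, k⟩ => ?_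
    have hp := hr p
    have hμ : ‖(μ d : ℂ)‖ ≤ 1 := by
      rw [Complex.norm_intCast]
      exact_mod_cast abs_moebius_le_one
    rw [hF]
    simp only [norm_mul, norm_pow, norm_real, Real.norm_eq_abs,
      abs_of_nonneg (Real.log_natCast_nonneg _), ← norm_prime_cpow p s]
    rw [mul_assoc]
    refine mul_le_mul_of_nonneg_left ((mul_le_of_le_one_left (by positivity) hμ).trans ?_)
      (Real.log_natCast_nonneg _)
    rw [← pow_add]
    have h1 : ((d : ℕ) - 1) + ((k : ℕ) - 1) + 1 ≤ (d : ℕ) * k := by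
      have h := Nat.mul_le_mul (Nat.sub_le (d : ℕ) 0) (le_refl (k : ℕ))
      have hd := d.pos
      have hk := k.pos
      nlinarith [Nat.sub_add_cancel (show 1 ≤ (d : ℕ) from hd),
        Nat.sub_add_cancel (show 1 ≤ (k : ℕ) from hk)]
    calc ‖(p : ℂ) ^ (-s)‖ ^ ((d : ℕ) * k)
        ≤ ‖(p : ℂ) ^ (-s)‖ ^ (((d : ℕ) - 1) + ((k : ℕ) - 1) + 1) :=
          pow_le_pow_of_le_one (norm_nonneg _) (hp.trans (by norm_num)) h1
      _ = ‖(p : ℂ) ^ (-s)‖ ^ (((d : ℕ) - 1) + ((k : ℕ) - 1)) * ‖(p : ℂ) ^ (-s)‖ := pow_succ _ _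
      _ ≤ _ := by
          rw [mul_comm]
          exact mul_le_mul_of_nonneg_left (pow_le_pow_left₀ (norm_nonneg _) hp _) (norm_nonneg _)
  have hp : ∀ p : Nat.Primes, HasSum (fun c => F (p, c))
      ((Real.log (p : ℕ) : ℂ) * (p : ℂ) ^ (-s)) := fun p => by
    rw [hF]
    exact (hasSum_moebius_lambert ((hr p).trans_lt (by norm_num))).mul_left _
  have htot := hsum.hasSum.prod_fiberwise hp
  rw [htot.tsum_eq]
  -- regroup by `d`
  let e : ℕ+ × Nat.Primes × ℕ+ ≃ Nat.Primes × ℕ+ × ℕ+ :=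
    { toFun := fun t => (t.2.1, t.1, t.2.2)
      invFun := fun t => (t.2.1, t.1, t.2.2)
      left_inv := fun _ => rfl
      right_inv := fun _ => rfl }
  have hd : ∀ d : ℕ+, HasSum (fun c : Nat.Primes × ℕ+ => F (e (d, c)))
      ((μ d : ℂ) * negLog ((d : ℕ) * s)) := fun d => by
    have h1 : 1 < (((d : ℕ) : ℂ) * s).re := by
      rw [mul_re, natCast_re, natCast_im, zero_mul, sub_zero]
      have : (1 : ℝ) ≤ (d : ℕ) := Nat.one_le_cast.2 d.pos
      nlinarith
    have h := ((Equiv.prodCongr (Equiv.refl Nat.Primes) Equiv.pnatEquivNat).hasSum_iff.2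
      (hasSum_negLog h1)).mul_left (μ d : ℂ)
    refine h.congr_fun fun c => ?_
    rw [hF]
    have hk : (Equiv.pnatEquivNat c.2) + 1 = (c.2 : ℕ) := by simp [Equiv.pnatEquivNat]
    simp only [e, Equiv.coe_fn_mk, Function.comp_apply, Equiv.prodCongr_apply, Prod.map_fst,
      Prod.map_snd, Equiv.coe_refl, id_eq, hk, ← mul_neg, cpow_nat_mul, pow_mul]
    ring
  have hd2 := (e.hasSum_iff.2 hsum.hasSum).prod_fiberwise hd
  refine (PNat.coe_injective.hasSum_iff fun n hn => ?_).1 hd2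
  have : n = 0 := by
    by_contra h
    exact hn ⟨⟨n, Nat.pos_of_ne_zero h⟩, rfl⟩
  simp [this]

/-- The derivative of the prime zeta function. -/
theorem deriv_primeP {s : ℂ} (hs : 1 < s.re) :
    deriv primeP s = -∑' p : Nat.Primes, (Real.log (p : ℕ) : ℂ) * (p : ℂ) ^ (-s) := by
  obtain ⟨f, hf⟩ : ∃ f : ℕ → ℂ, f = fun n => if n.Prime then 1 else 0 := ⟨_, rfl⟩
  have hterm : ∀ (g : ℕ → ℂ) (z : ℂ), (∀ n, ¬ n.Prime → g n = 0) →
      LSeries g z = ∑' p : Nat.Primes, g p * (p : ℂ) ^ (-z) := fun g z hg => by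
    have hsupp : Function.support (LSeries.term g z) ⊆ {n : ℕ | n.Prime} := fun n hn => by
      by_contra h
      simp [LSeries.term, hg n h] at hn
    rw [LSeries, ← tsum_subtype_eq_of_support_subset hsupp]
    refine tsum_congr fun p => ?_
    rw [LSeries.term_of_ne_zero p.2.ne_zero, cpow_neg, div_eq_mul_inv]
  have habs : ∀ z : ℂ, 1 < z.re → LSeries.abscissaOfAbsConv f < z.re := fun z hz => by
    refine lt_of_le_of_lt (LSeries.abscissaOfAbsConv_le_of_le_const ⟨1, fun n _ => ?_⟩)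
      (by exact_mod_cast hz)
    rw [hf]
    simp only
    split <;> simp
  have he : primeP =ᶠ[𝓝 s] LSeries f := by
    filter_upwards [(isOpen_lt continuous_const continuous_re).mem_nhds hs] with z _
    rw [hterm f z fun n hn => by simp [hf, hn], primeP]
    exact tsum_congr fun p => by simp [hf, p.2]
  rw [he.deriv_eq, LSeries_deriv (habs s hs),
    hterm _ s fun n hn => by simp [LSeries.logMul, hf, hn]]
  refine congrArg _ (tsum_congr fun p => ?_)
  simp [LSeries.logMul, hf, p.2, natCast_log]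

theorem contP_eq_deriv {s : ℂ} (hs : 1 < s.re) : contP s = deriv primeP s := by
  rw [deriv_primeP hs, contP, (hasSum_moebius_negLog hs).tsum_eq]

/-- `-ζ'/ζ` decays exponentially to the right. -/
theorem exists_norm_negLog_le :
    ∃ K : ℝ, 0 ≤ K ∧ ∀ w : ℂ, 2 ≤ w.re → ‖negLog w‖ ≤ K * (1 / 2) ^ w.re := by
  have h2 : 1 < ((2 : ℝ) : ℂ).re := by simp
  have hK := (LSeriesSummable_vonMangoldt h2).norm
  refine ⟨4 * ∑' n, ‖LSeries.term (fun n => (vonMangoldt n : ℂ)) ((2 : ℝ) : ℂ) n‖,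
    by positivity, fun w hw => ?_⟩
  have hw1 : 1 < w.re := by linarith
  rw [← negLog_eq hw1, LSeries]
  refine (norm_tsum_le_tsum_norm (LSeriesSummable_vonMangoldt hw1).norm).trans ?_
  rw [mul_right_comm, ← tsum_mul_left]
  refine Summable.tsum_le_tsum (fun n => ?_) (LSeriesSummable_vonMangoldt hw1).norm (hK.mul_left _)
  rcases Nat.lt_or_ge n 2 with hn | hn
  · interval_cases n <;> simp
  · have hne : n ≠ 0 := by omega
    rw [LSeries.norm_term_eq, LSeries.norm_term_eq, if_neg hne, if_neg hne, ofReal_re]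
    have hn0 : (0 : ℝ) < n := by exact_mod_cast (by omega : 0 < n)
    have hn2 : (2 : ℝ) ≤ n := by exact_mod_cast hn
    have e : (n : ℝ) ^ w.re = (n : ℝ) ^ (2 : ℝ) * (n : ℝ) ^ (w.re - 2) := by
      rw [← Real.rpow_add hn0]; ring_nf
    have h3 : (2 : ℝ) ^ (w.re - 2) ≤ (n : ℝ) ^ (w.re - 2) :=
      Real.rpow_le_rpow two_pos.le hn2 (by linarith)
    have h4 : (1 / 2 : ℝ) ^ w.re * 4 = ((2 : ℝ) ^ (w.re - 2))⁻¹ := by
      rw [Real.rpow_sub two_pos, one_div, Real.inv_rpow two_pos.le, inv_div]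
      norm_num
      ring
    rw [mul_comm 4, h4, e, ← div_div, div_eq_mul_inv _ ((n : ℝ) ^ (w.re - 2)), mul_comm _⁻¹]
    exact mul_le_mul_of_nonneg_left (inv_anti₀ (by positivity) h3) (by positivity)

/-- The tail of the series is holomorphic far enough to the right. -/
theorem exists_contP_split {δ : ℝ} (hδ : 0 < δ) {N : ℕ} (hN : 2 ≤ N * δ) :
    ∃ h : ℂ → ℂ, AnalyticOnNhd ℂ h {s | δ < s.re} ∧ ∀ s : ℂ, δ < s.re →
      contP s = (∑ n ∈ Finset.range N, (-(μ n : ℂ)) * negLog (n * s)) + h s := by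
  obtain ⟨K, hK, hb⟩ := exists_norm_negLog_le
  have hU : IsOpen {s : ℂ | δ < s.re} := isOpen_lt continuous_const continuous_re
  have hr : (1 / 2 : ℝ) ^ δ < 1 := Real.rpow_lt_one (by norm_num) (by norm_num) hδ
  have hu : Summable fun n : ℕ => K * ((1 / 2 : ℝ) ^ δ) ^ (n + N) :=
    ((summable_geometric_of_lt_one (by positivity) hr).comp_injective
      (add_left_injective N)).mul_left K
  have hre : ∀ (n : ℕ) (s : ℂ), δ < s.re →
      (n + N : ℕ) * δ ≤ (((n + N : ℕ) : ℂ) * s).re := fun n s hs => by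
    rw [mul_re, natCast_re, natCast_im, zero_mul, sub_zero]
    exact mul_le_mul_of_nonneg_left hs.le (Nat.cast_nonneg _)
  have h2 : ∀ (n : ℕ) (s : ℂ), δ < s.re → 2 ≤ (((n + N : ℕ) : ℂ) * s).re := fun n s hs => by
    refine hN.trans (le_trans ?_ (hre n s hs))
    exact mul_le_mul_of_nonneg_right (by exact_mod_cast Nat.le_add_left N n) hδ.le
  have hle : ∀ (n : ℕ) (s : ℂ), s ∈ {s : ℂ | δ < s.re} →
      ‖(μ (n + N) : ℂ) * negLog ((n + N : ℕ) * s)‖ ≤ K * ((1 / 2 : ℝ) ^ δ) ^ (n + N) := by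
    intro n s hs
    rw [norm_mul]
    refine (mul_le_of_le_one_left (norm_nonneg _) ?_).trans ((hb _ (h2 n s hs)).trans ?_)
    · rw [Complex.norm_intCast]
      exact_mod_cast abs_moebius_le_one
    refine mul_le_mul_of_nonneg_left ?_ hK
    rw [← Real.rpow_natCast, ← Real.rpow_mul (by norm_num), mul_comm δ]
    exact Real.rpow_le_rpow_of_exponent_ge (by norm_num) (by norm_num) (hre n s hs)
  have hdiff : ∀ n : ℕ, DifferentiableOn ℂ
      (fun s : ℂ => (μ (n + N) : ℂ) * negLog ((n + N : ℕ) * s)) {s : ℂ | δ < s.re} := by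
    intro n s hs
    have h := h2 n s hs
    have hne : ((n + N : ℕ) : ℂ) * s ≠ 1 := fun e => by
      rw [e, one_re] at h
      linarith
    have ha := analyticOn_riemannZeta _ hne
    have hd : DifferentiableAt ℂ negLog (((n + N : ℕ) : ℂ) * s) :=
      (ha.deriv.neg.div ha (riemannZeta_ne_zero_of_one_le_re (by linarith))).differentiableAt
    exact ((hd.fun_comp' s (differentiableAt_id.const_mul _)).const_mul _).differentiableWithinAt
  refine ⟨fun s => -∑' n : ℕ, (μ (n + N) : ℂ) * negLog ((n + N : ℕ) * s),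
    ((differentiableOn_tsum_of_summable_norm hu hdiff hU hle).neg).analyticOnNhd hU,
    fun s hs => ?_⟩
  have hsum : Summable fun n : ℕ => (μ n : ℂ) * negLog (n * s) :=
    (summable_nat_add_iff N).1 (Summable.of_norm_bounded hu fun n => hle n s hs)
  rw [contP, ← hsum.sum_add_tsum_nat_add N, neg_add, ← Finset.sum_neg_distrib]
  simp only [neg_mul]

theorem meromorphicAt_riemannZeta (w : ℂ) : MeromorphicAt riemannZeta w := by
  rcases ne_or_eq w 1 with hw | rfl
  · exact (analyticOn_riemannZeta w hw).meromorphicAt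
  refine ⟨2, analyticAt_of_differentiable_on_punctured_nhds_of_continuousAt ?_ ?_⟩
  · filter_upwards [self_mem_nhdsWithin] with z hz
    exact ((differentiableAt_id.sub_const 1).pow 2).smul (differentiableAt_riemannZeta hz)
  · rw [← continuousWithinAt_compl_self, ContinuousWithinAt]
    have h : Tendsto (fun z : ℂ => (z - 1) * ((z - 1) * riemannZeta z)) (𝓝[≠] 1)
        (𝓝 ((1 - 1) * 1)) :=
      ((continuous_id.sub continuous_const).continuousAt.tendsto.mono_left
        nhdsWithin_le_nhds).mul riemannZeta_residue_one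
    simpa [smul_eq_mul, sq, mul_assoc] using h

theorem meromorphicAt_negLog (w : ℂ) : MeromorphicAt negLog w :=
  (meromorphicAt_riemannZeta w).deriv.neg.div (meromorphicAt_riemannZeta w)

/-- The continuation is meromorphic on `0 < re s`. -/
theorem meromorphicOn_contP : MeromorphicOn contP {s | 0 < s.re} := by
  intro s hs
  simp only [Set.mem_ofPred_eq] at hs
  obtain ⟨N, hN⟩ := exists_nat_ge (4 / s.re)
  have hN2 : 2 ≤ N * (s.re / 2) := by
    rw [div_le_iff₀ hs] at hN
    linarith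
  obtain ⟨h, hh, he⟩ := exists_contP_split (half_pos hs) hN2
  have hm : MeromorphicAt
      ((fun z : ℂ => ∑ n ∈ Finset.range N, (-(μ n : ℂ)) * negLog (n * z)) + h) s := by
    refine MeromorphicAt.add (MeromorphicAt.fun_sum fun n _ => ?_)
      (hh s (half_lt_self hs)).meromorphicAt
    exact (MeromorphicAt.const _ s).mul
      ((meromorphicAt_negLog _).comp_analyticAt (analyticAt_const.mul analyticAt_id))
  refine hm.congr (EventuallyEq.filter_mono ?_ nhdsWithin_le_nhds)
  filter_upwards [(isOpen_lt continuous_const continuous_re).mem_nhds (half_lt_self hs)]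
    with z hz using (he z hz).symm

end FA.PrimeZeta
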