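import Fermat.Agent.PrimeZeta.Series
import Fermat.Agent.Root.SummaryRiemannMangoldt

/-!
# The poles of the continuation accumulate at the imaginary axis

At `s = ρ / q`, with `q` a prime and `ρ` a zero of `ζ` of multiplicity less than `q` and with
`1 / 2 ≤ re ρ`, the continuation of the derivative of the prime zeta function has a pole.
-/

set_option autoImplicit false

noncomputable section

namespace FA.PrimeZeta

open Complex Filter Topology ArithmeticFunction Asymptotics
open FA.RiemannMangoldt (zeroCount zetaZeros finite_zetaZeros zeroCount_mono)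
open scoped ArithmeticFunction.Moebius ComplexConjugate

/-- The order of `ζ` at `w`. -/
def zetaOrd (w : ℂ) : ℕ := analyticOrderNatAt riemannZeta w

theorem analyticOrderAt_zeta_ne_top {w : ℂ} (hw : w ≠ 1) : analyticOrderAt riemannZeta w ≠ ⊤ := by
  have hpre : IsPreconnected ({1}ᶜ : Set ℂ) :=
    (isConnected_compl_singleton_of_one_lt_rank
      (by rw [rank_real_complex]; exact Nat.one_lt_ofNat) 1).isPreconnected
  have h2 : (2 : ℂ) ≠ 1 := by norm_num
  refine analyticOn_riemannZeta.analyticOrderAt_ne_top_of_isPreconnected hpre (x := 2) h2 hw ?_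
  rw [analyticOrderAt_eq_zero.2 (Or.inr (riemannZeta_ne_zero_of_one_le_re (by norm_num)))]
  exact ENat.zero_ne_top

theorem zetaOrd_eq_zero {w : ℂ} (hw : riemannZeta w ≠ 0) : zetaOrd w = 0 := by
  rw [zetaOrd, analyticOrderNatAt, analyticOrderAt_eq_zero.2 (Or.inr hw)]
  rfl

theorem zetaOrd_pos {w : ℂ} (hw : w ≠ 1) (h0 : riemannZeta w = 0) : 0 < zetaOrd w := by
  refine Nat.pos_of_ne_zero fun h => ?_
  have h1 := (analyticOn_riemannZeta w hw).analyticOrderAt_eq_zero.1 (by
    rw [← Nat.cast_analyticOrderNatAt (analyticOrderAt_zeta_ne_top hw)]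
    exact_mod_cast h)
  exact h1 h0

/-- The residue of `-ζ'/ζ` at `w ≠ 1`. -/
theorem tendsto_mul_negLog {w : ℂ} (hw : w ≠ 1) :
    Tendsto (fun z => (z - w) * negLog z) (𝓝[≠] w) (𝓝 (-(zetaOrd w : ℂ))) := by
  obtain ⟨g, hg, hg0, heq⟩ := (analyticOn_riemannZeta w hw).analyticOrderAt_ne_top.1
    (analyticOrderAt_zeta_ne_top hw)
  rw [zetaOrd]
  generalize analyticOrderNatAt riemannZeta w = m at heq
  have hlim : Tendsto (fun z => -((m : ℂ) + (z - w) * (deriv g z / g z))) (𝓝[≠] w)
      (𝓝 (-(m : ℂ))) := by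
    have hc : ContinuousAt (fun z => -((m : ℂ) + (z - w) * (deriv g z / g z))) w :=
      (continuousAt_const.add ((continuousAt_id.sub continuousAt_const).mul
        (hg.deriv.continuousAt.div hg.continuousAt hg0))).neg
    simpa using hc.tendsto.mono_left (nhdsWithin_le_nhds (s := {w}ᶜ))
  refine hlim.congr' ?_
  filter_upwards [nhdsWithin_le_nhds (heq.eventuallyEq_nhds.and
    ((hg.continuousAt.eventually_ne hg0).and hg.eventually_analyticAt)), self_mem_nhdsWithin]
    with z ⟨hz, hgz, hga⟩ hne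
  have hzw : z - w ≠ 0 := sub_ne_zero.2 hne
  have hd : HasDerivAt (fun y => (y - w) ^ m * g y)
      ((m : ℂ) * (z - w) ^ (m - 1) * 1 * g z + (z - w) ^ m * deriv g z) z :=
    (((hasDerivAt_id z).sub_const w).pow m).mul hga.differentiableAt.hasDerivAt
  have he : riemannZeta =ᶠ[𝓝 z] fun y => (y - w) ^ m * g y := by
    filter_upwards [hz] with y hy using by rw [hy, smul_eq_mul]
  rw [negLog, he.deriv_eq, hd.deriv, he.eq_of_nhds]
  rcases m with _ | k
  · simp only [pow_zero, Nat.cast_zero]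
    field_simp
    ring
  · simp only [Nat.add_sub_cancel, pow_succ]
    field_simp

/-- The residue of the continuation at a point off the real axis. -/
theorem tendsto_mul_contP {s : ℂ} (hs : 0 < s.re) (him : s.im ≠ 0) {N : ℕ}
    (hN : 4 ≤ N * s.re) :
    Tendsto (fun z => (z - s) * contP z) (𝓝[≠] s)
      (𝓝 (∑ n ∈ Finset.range N, (μ n : ℂ) * zetaOrd (n * s) / n)) := by
  obtain ⟨h, hh, he⟩ := exists_contP_split (half_pos hs) (N := N) (by linarith)
  have hmem : s ∈ {z : ℂ | s.re / 2 < z.re} := half_lt_self hs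
  have hterm : ∀ n ∈ Finset.range N, Tendsto (fun z => (z - s) * ((-(μ n : ℂ)) * negLog (n * z)))
      (𝓝[≠] s) (𝓝 ((μ n : ℂ) * zetaOrd (n * s) / n)) := by
    intro n _
    rcases eq_or_ne n 0 with rfl | hn
    · simp
    have hn' : (n : ℂ) ≠ 0 := Nat.cast_ne_zero.2 hn
    have hw : (n : ℂ) * s ≠ 1 := fun e => by
      have := congrArg Complex.im e
      simp [hn, him] at this
    have hmap : Tendsto (fun z : ℂ => (n : ℂ) * z) (𝓝[≠] s) (𝓝[≠] ((n : ℂ) * s)) := by
      refine tendsto_nhdsWithin_of_tendsto_nhds_of_eventually_within _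
        ((continuous_const.mul continuous_id).continuousAt.tendsto.mono_left nhdsWithin_le_nhds) ?_
      filter_upwards [self_mem_nhdsWithin] with z hz
      exact fun e => hz (mul_left_cancel₀ hn' e)
    have h2 := ((tendsto_mul_negLog hw).comp hmap).const_mul (-(μ n : ℂ) / n)
    have e1 : -(μ n : ℂ) / n * -(zetaOrd (n * s) : ℂ) = (μ n : ℂ) * zetaOrd (n * s) / n := by ring
    rw [e1] at h2
    refine h2.congr fun z => ?_
    rw [Function.comp_apply]
    field_simp
  have h0 : Tendsto (fun z => (z - s) * h z) (𝓝[≠] s) (𝓝 0) := by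
    have hc : ContinuousAt (fun z => (z - s) * h z) s :=
      (continuousAt_id.sub continuousAt_const).mul (hh s hmem).continuousAt
    simpa using hc.tendsto.mono_left (nhdsWithin_le_nhds (s := {s}ᶜ))
  have hsum := (tendsto_finsetSum _ hterm).add h0
  rw [add_zero] at hsum
  refine hsum.congr' ?_
  filter_upwards [nhdsWithin_le_nhds
    ((isOpen_lt continuous_const continuous_re).mem_nhds hmem)] with z hz
  rw [he z hz, mul_add, Finset.mul_sum]

/-- The residue does not vanish. -/
theorem residue_ne_zero {q : ℕ} (hq : q.Prime) {ρ : ℂ} (h0 : riemannZeta ρ = 0)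
    (hre : 1 / 2 ≤ ρ.re) (him : ρ.im ≠ 0) (hm : zetaOrd ρ < q) {N : ℕ} (hN : 2 * q ≤ N) :
    ∑ n ∈ Finset.range N, (μ n : ℂ) * zetaOrd (n * (ρ / q)) / n ≠ 0 := by
  have hq0 : (q : ℂ) ≠ 0 := Nat.cast_ne_zero.2 hq.ne_zero
  have hz : ∀ n, 2 * q ≤ n → zetaOrd (n * (ρ / q)) = 0 := fun n hn => by
    refine zetaOrd_eq_zero (riemannZeta_ne_zero_of_one_le_re ?_)
    rw [mul_re, natCast_re, natCast_im, zero_mul, sub_zero, div_natCast_re, mul_div,
      one_le_div (by exact_mod_cast hq.pos : (0 : ℝ) < q)]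
    have : (2 * q : ℝ) ≤ n := by exact_mod_cast hn
    nlinarith
  rw [← Finset.sum_subset (Finset.range_mono hN) fun n _ hn => by
    rw [hz n (by simpa using hn)]; simp]
  obtain ⟨S, hS⟩ : ∃ S, S = (Finset.range (2 * q)).filter fun n => n ≠ 0 ∧ n ≠ q := ⟨_, rfl⟩
  obtain ⟨L, hL⟩ : ∃ L : ℕ, L = ∏ n ∈ S, n := ⟨_, rfl⟩
  have hqL : ¬ q ∣ L := by
    rw [hL, (Nat.prime_iff.1 hq).dvd_finsetProd_iff]
    rintro ⟨n, hn, k, rfl⟩
    simp only [hS, Finset.mem_filter, Finset.mem_range] at hn
    have hk : k < 2 := by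
      by_contra hc
      nlinarith [Nat.mul_le_mul_left q (not_lt.1 hc), hn.1]
    interval_cases k <;> simp at hn
  have hord : (μ q : ℂ) * zetaOrd (q * (ρ / q)) = -(zetaOrd ρ : ℂ) := by
    rw [mul_div_cancel₀ ρ hq0, moebius_apply_prime hq]
    simp
  intro hsum
  have hmul : (zetaOrd ρ : ℂ) * L =
      q * ∑ n ∈ S, (μ n : ℂ) * zetaOrd (n * (ρ / q)) * ((L / n : ℕ) : ℂ) := by
    have h1 : ∀ n ∈ S, (μ n : ℂ) * zetaOrd (n * (ρ / q)) * ((L / n : ℕ) : ℂ) =
        (L : ℂ) * ((μ n : ℂ) * zetaOrd (n * (ρ / q)) / n) := fun n hn => by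
      have hn0 : (n : ℂ) ≠ 0 := by
        simp only [hS, Finset.mem_filter] at hn
        exact Nat.cast_ne_zero.2 hn.2.1
      rw [Nat.cast_div (hL ▸ Finset.dvd_prod_of_mem _ hn) hn0]
      ring
    have hsplit : ∑ n ∈ Finset.range (2 * q), (μ n : ℂ) * zetaOrd (n * (ρ / q)) / n =
        (∑ n ∈ S, (μ n : ℂ) * zetaOrd (n * (ρ / q)) / n) + -(zetaOrd ρ : ℂ) / q := by
      have hqmem : q ∈ Finset.range (2 * q) :=
        Finset.mem_range.2 (by have := hq.pos; omega)
      rw [← Finset.sum_erase_add _ _ hqmem, hord, hS]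
      congr 1
      refine (Finset.sum_subset (fun n hn => ?_) fun n hn hn2 => ?_).symm
      · simp only [Finset.mem_filter] at hn
        exact Finset.mem_erase.2 ⟨hn.2.2, hn.1⟩
      · simp only [Finset.mem_filter, Finset.mem_erase] at hn hn2
        have : n = 0 := by by_contra h; exact hn2 ⟨hn.2, h, hn.1⟩
        simp [this]
    rw [hsplit] at hsum
    rw [Finset.sum_congr rfl h1, ← Finset.mul_sum, eq_neg_of_add_eq_zero_left hsum]
    field_simp
  have hint : (zetaOrd ρ : ℤ) * L =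
      q * ∑ n ∈ S, μ n * (zetaOrd (n * (ρ / q)) : ℤ) * ((L / n : ℕ) : ℤ) := by
    apply Int.cast_injective (α := ℂ)
    simpa only [Int.cast_mul, Int.cast_natCast, Int.cast_sum] using hmul
  have hdvd : q ∣ zetaOrd ρ * L :=
    Int.natCast_dvd_natCast.1 (by rw [Nat.cast_mul]; exact ⟨_, hint⟩)
  rcases hq.dvd_mul.1 hdvd with hd | hd
  · have hρ1 : ρ ≠ 1 := fun e => him (by simp [e])
    have := Nat.le_of_dvd (zetaOrd_pos hρ1 h0) hd
    omega
  · exact hqL hd

/-- Counting zeros in a short interval. -/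
theorem zetaOrd_le_zeroCount {ρ : ℂ} {T : ℝ} (hρ : ρ ∈ zetaZeros (T + 1)) (hT : T < ρ.im) :
    zeroCount T + zetaOrd ρ ≤ zeroCount (T + 1) := by
  rw [FA.RiemannMangoldt.Summary.zeroCount_spec, FA.RiemannMangoldt.Summary.zeroCount_spec,
    add_comm, zetaOrd, ← Finset.sum_insert (s := (finite_zetaZeros T).toFinset) (a := ρ) ?_]
  · refine Finset.sum_le_sum_of_subset fun x hx => ?_
    rw [Finset.mem_insert, Set.Finite.mem_toFinset] at hx
    rw [Set.Finite.mem_toFinset]
    rcases hx with rfl | hx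
    · exact hρ
    · simp only [FA.RiemannMangoldt.Summary.zetaZeros_spec, Set.mem_ofPred_eq] at hx ⊢
      exact ⟨hx.1, hx.2.1, hx.2.2.1, hx.2.2.2.1, hx.2.2.2.2.trans (le_add_of_nonneg_right
        zero_le_one)⟩
  · rw [Set.Finite.mem_toFinset, FA.RiemannMangoldt.Summary.zetaZeros_spec, Set.mem_ofPred_eq]
    exact fun h => absurd h.2.2.2.2 (not_le.2 hT)

/-- Reflecting a zero in the critical line. -/
theorem zeta_reflect {ρ : ℂ} (h0 : riemannZeta ρ = 0) (him : ρ.im ≠ 0) :
    riemannZeta (1 - conj ρ) = 0 := by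
  rw [riemannZeta_one_sub (fun n e => him ?_) (fun e => him ?_), riemannZeta_conj, h0,
    _root_.map_zero, mul_zero]
  · simpa using congrArg Complex.im e
  · simpa using congrArg Complex.im e

theorem tendsto_zeroCount_scale {c : ℝ} (hc : 0 < c) :
    Tendsto (fun x : ℝ => (zeroCount (c * x) : ℝ) / (x * Real.log x)) atTop
      (𝓝 (c / (2 * Real.pi))) := by
  have h1 := FA.RiemannMangoldt.Summary.zeroCount_asymptotic.comp
    (tendsto_id.const_mul_atTop hc)
  have h2 : Tendsto (fun x : ℝ => c * (Real.log c / Real.log x + 1)) atTop (𝓝 (c * (0 + 1))) :=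
    ((tendsto_const_nhds.div_atTop Real.tendsto_log_atTop).add_const 1).const_mul c
  have h3 := h1.mul h2
  rw [show 1 / (2 * Real.pi) * (c * (0 + 1)) = c / (2 * Real.pi) by ring] at h3
  refine h3.congr' ?_
  filter_upwards [eventually_gt_atTop 1, eventually_gt_atTop (1 / c)] with x hx hxc
  have hl : 0 < Real.log x := Real.log_pos hx
  have h4 : 1 < c * x := by rwa [div_lt_iff₀' hc] at hxc
  have hl2 : 0 < Real.log (c * x) := Real.log_pos h4
  simp only [Function.comp_apply, id_eq]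
  rw [Real.log_mul hc.ne' (by linarith)] at hl2 ⊢
  field_simp

/-- For large `q` there is a zero at height in `(q a, q b]`, of multiplicity less than `q`. -/
theorem eventually_exists_zero {a b : ℝ} (ha : 0 < a) (hab : a < b) :
    ∀ᶠ q : ℕ in atTop, ∃ ρ : ℂ, riemannZeta ρ = 0 ∧ 1 / 2 ≤ ρ.re ∧ ρ.re < 1 ∧
      a * q < ρ.im ∧ ρ.im ≤ b * q ∧ zetaOrd ρ < q := by
  obtain ⟨C, hC⟩ := FA.RiemannMangoldt.Summary.zeroCount_short_interval
  have hb : 0 < b := ha.trans hab
  have h1 : ∀ᶠ x : ℝ in atTop, zeroCount (a * x) < zeroCount (b * x) := by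
    filter_upwards [(tendsto_zeroCount_scale ha).eventually_lt_const
        (show a / (2 * Real.pi) < (a + b) / 2 / (2 * Real.pi) from
          div_lt_div_of_pos_right (by linarith) (by positivity)),
      (tendsto_zeroCount_scale hb).eventually_const_lt
        (show (a + b) / 2 / (2 * Real.pi) < b / (2 * Real.pi) from
          div_lt_div_of_pos_right (by linarith) (by positivity)),
      eventually_gt_atTop 1] with x h1 h2 hx
    have hl : 0 < x * Real.log x := by have := Real.log_pos hx; positivity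
    exact_mod_cast (div_lt_div_iff_of_pos_right hl).1 (h1.trans h2)
  have h2 : ∀ᶠ x : ℝ in atTop, |C| * Real.log (b * x) < x := by
    have h := ((Real.isLittleO_log_id_atTop.comp_tendsto (tendsto_id.const_mul_atTop hb)).bound
      (show (0 : ℝ) < 1 / (b * (|C| + 1)) by positivity))
    filter_upwards [h, eventually_gt_atTop 0] with x hx h0
    simp only [Function.comp_apply, id_eq, Real.norm_eq_abs,
      abs_of_pos (mul_pos hb h0)] at hx
    have h3 := (le_abs_self (Real.log (b * x))).trans hx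
    rw [show 1 / (b * (|C| + 1)) * (b * x) = x / (|C| + 1) by field_simp] at h3
    calc |C| * Real.log (b * x) ≤ |C| * (x / (|C| + 1)) :=
          mul_le_mul_of_nonneg_left h3 (abs_nonneg C)
      _ < (|C| + 1) * (x / (|C| + 1)) := by nlinarith [div_pos h0 (by positivity : 0 < |C| + 1)]
      _ = x := by field_simp
  filter_upwards [tendsto_natCast_atTop_atTop.eventually h1,
    tendsto_natCast_atTop_atTop.eventually h2,
    tendsto_natCast_atTop_atTop.eventually (eventually_ge_atTop (3 / a))] with q h1 h2 h3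
  obtain ⟨ρ₀, hb0, ha0⟩ : ∃ ρ ∈ zetaZeros (b * q), ρ ∉ zetaZeros (a * q) := by
    by_contra hc
    refine h1.not_ge ?_
    rw [FA.RiemannMangoldt.Summary.zeroCount_spec, FA.RiemannMangoldt.Summary.zeroCount_spec]
    refine Finset.sum_le_sum_of_subset fun x hx => ?_
    rw [Set.Finite.mem_toFinset] at hx ⊢
    by_contra hx2
    exact hc ⟨x, hx, hx2⟩
  rw [FA.RiemannMangoldt.Summary.zetaZeros_spec, Set.mem_ofPred_eq] at hb0 ha0
  obtain ⟨hz, hr0, hr1, hi0, hib⟩ := hb0
  have hia : a * q < ρ₀.im := lt_of_not_ge fun h => ha0 ⟨hz, hr0, hr1, hi0, h⟩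
  obtain ⟨ρ, hρz, hρh, hρ1, hρi⟩ : ∃ ρ : ℂ, riemannZeta ρ = 0 ∧ 1 / 2 ≤ ρ.re ∧ ρ.re < 1 ∧
      ρ.im = ρ₀.im := by
    rcases le_or_gt (1 / 2) ρ₀.re with h | h
    · exact ⟨ρ₀, hz, h, hr1, rfl⟩
    · exact ⟨1 - conj ρ₀, zeta_reflect hz hi0.ne', by simp; linarith, by simp; linarith, by simp⟩
  refine ⟨ρ, hρz, hρh, hρ1, hρi ▸ hia, hρi ▸ hib, ?_⟩
  have h3' : 3 ≤ a * q := by rwa [div_le_iff₀' ha] at h3
  have hT : 2 ≤ ρ.im - 1 / 2 := by rw [hρi]; linarith
  have hmem : ρ ∈ zetaZeros (ρ.im - 1 / 2 + 1) := by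
    rw [FA.RiemannMangoldt.Summary.zetaZeros_spec, Set.mem_ofPred_eq]
    exact ⟨hρz, by linarith, hρ1, by linarith, by linarith⟩
  have h5 := zetaOrd_le_zeroCount hmem (by linarith)
  have h6 := hC _ hT
  have h7 : C * Real.log (ρ.im - 1 / 2) ≤ |C| * Real.log (b * q) := by
    have hl0 : 0 ≤ Real.log (ρ.im - 1 / 2) := Real.log_nonneg (by linarith)
    refine (mul_le_mul_of_nonneg_right (le_abs_self C) hl0).trans ?_
    exact mul_le_mul_of_nonneg_left (Real.log_le_log (by linarith) (by rw [hρi]; linarith))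
      (abs_nonneg C)
  rw [← @Nat.cast_lt ℝ]
  have h8 : (zeroCount (ρ.im - 1 / 2) : ℝ) + zetaOrd ρ ≤ zeroCount (ρ.im - 1 / 2 + 1) := by
    exact_mod_cast h5
  linarith

theorem negLog_conj (w : ℂ) : negLog (conj w) = conj (negLog w) := by
  have hfun : (conj ∘ riemannZeta ∘ conj : ℂ → ℂ) = riemannZeta := funext fun z => by
    simp [riemannZeta_conj]
  have hd : deriv riemannZeta (conj w) = conj (deriv riemannZeta w) := by
    conv_lhs => rw [← hfun, deriv_conj_conj]
    simp
  rw [negLog, negLog, hd, riemannZeta_conj, map_div₀, map_neg]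

theorem contP_conj (s : ℂ) : contP (conj s) = conj (contP s) := by
  rw [contP, contP, map_neg, conj_tsum]
  refine congrArg _ (tsum_congr fun n => ?_)
  rw [map_mul, ← negLog_conj, map_mul, map_natCast, map_intCast]

/-- Poles of the continuation accumulate at every point of the imaginary axis. -/
theorem exists_pole (t : ℝ) {ε : ℝ} (hε : 0 < ε) :
    ∃ s R : ℂ, R ≠ 0 ∧ 0 < s.re ∧ dist s (t * I) < ε ∧
      Tendsto (fun z => (z - s) * contP z) (𝓝[≠] s) (𝓝 R) := by
  have pos : ∀ u : ℝ, 0 ≤ u → ∃ s R : ℂ, R ≠ 0 ∧ 0 < s.re ∧ dist s (u * I) < ε ∧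
      Tendsto (fun z => (z - s) * contP z) (𝓝[≠] s) (𝓝 R) := by
    intro u hu
    obtain ⟨q, ⟨⟨ρ, hz, hh, h1, hia, hib, hm⟩, hqε⟩, hq⟩ :=
      (((eventually_exists_zero (a := u + ε / 4) (b := u + ε / 2) (by linarith) (by linarith)).and
        (tendsto_natCast_atTop_atTop.eventually (eventually_gt_atTop (2 / ε)))).and_frequently
        (Nat.frequently_atTop_iff_infinite.2 Nat.infinite_setOfPred_prime)).exists
    have hq0 : (0 : ℝ) < q := Nat.cast_pos.2 hq.pos
    obtain ⟨N, hN⟩ := exists_nat_ge (max (2 * q : ℝ) (8 * q))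
    have hre : 0 < (ρ / q).re := by
      rw [div_natCast_re]; exact div_pos (by linarith) hq0
    have him : ρ.im ≠ 0 := by nlinarith
    refine ⟨ρ / q, _, residue_ne_zero hq hz hh him hm (N := N) ?_, hre, ?_,
      tendsto_mul_contP hre ?_ ?_⟩
    · exact_mod_cast (le_max_left _ _).trans hN
    · rw [div_lt_iff₀ hε] at hqε
      have h2 : |(ρ / q - u * I).re| < ε / 2 := by
        simp only [sub_re, div_natCast_re, mul_re, ofReal_re, I_re, mul_zero, ofReal_im, I_im,
          zero_mul, sub_zero]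
        rw [abs_of_pos (div_pos (by linarith) hq0), div_lt_iff₀ hq0]
        nlinarith
      have h3 : |(ρ / q - u * I).im| ≤ ε / 2 := by
        simp only [sub_im, div_natCast_im, mul_im, ofReal_re, I_im, mul_one, ofReal_im, I_re,
          mul_zero, add_zero]
        have e1 : u + ε / 4 < ρ.im / q := (lt_div_iff₀ hq0).2 hia
        have e2 : ρ.im / q ≤ u + ε / 2 := (div_le_iff₀ hq0).2 hib
        rw [abs_le]
        constructor <;> linarith
      rw [dist_eq_norm]
      exact (norm_le_abs_re_add_abs_im _).trans_lt (by linarith)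
    · simp [div_natCast_im, him, hq.ne_zero]
    · rw [div_natCast_re, mul_div, le_div_iff₀ hq0]
      have := (le_max_right _ _).trans hN
      nlinarith
  rcases le_total 0 t with ht | ht
  · exact pos t ht
  obtain ⟨s, R, hR, hs, hd, hlim⟩ := pos (-t) (neg_nonneg.2 ht)
  refine ⟨conj s, conj R, (map_ne_zero _).2 hR, by simpa using hs, ?_, ?_⟩
  · rw [← dist_conj_conj, Complex.conj_conj]
    simpa using hd
  · have hmap : Tendsto (fun z : ℂ => conj z) (𝓝[≠] conj s) (𝓝[≠] s) := by
      refine tendsto_nhdsWithin_of_tendsto_nhds_of_eventually_within _ ?_ ?_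
      · simpa using (continuous_conj.continuousAt (x := conj s)).tendsto.mono_left
          (nhdsWithin_le_nhds (s := {conj s}ᶜ))
      · filter_upwards [self_mem_nhdsWithin] with z hz e
        exact hz (show z = conj s by rw [← (show conj z = s from e), Complex.conj_conj])
    refine ((continuous_conj.tendsto R).comp (hlim.comp hmap)).congr fun z => ?_
    simp [contP_conj]

end FA.PrimeZeta
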