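import Fermat.Agent.PrimeZeta.Zeros

/-!
# The imaginary axis is the natural boundary of the prime zeta function

A meromorphic function on a connected domain which equals the derivative of the prime zeta
function somewhere on `1 < re s` lives inside `0 < re s`.
-/

set_option autoImplicit false

noncomputable section

namespace FA.PrimeZeta

open Complex Filter Topology Metric

/-- The points near which `f` agrees with the continuation. -/
def agreeSet (f : ℂ → ℂ) : Set ℂ := {x | f =ᶠ[𝓝[≠] x] contP}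

theorem isOpen_agreeSet (f : ℂ → ℂ) : IsOpen (agreeSet f) := by
  rw [isOpen_iff_mem_nhds]
  intro x hx
  obtain ⟨B, hB, hxB, hsub⟩ := mem_nhdsWithin.1 (hx : f =ᶠ[𝓝[≠] x] contP)
  filter_upwards [hB.mem_nhds hxB] with y hy
  rcases eq_or_ne y x with rfl | hne
  · exact hx
  · have h : f =ᶠ[𝓝 y] contP :=
      mem_of_superset ((hB.inter isOpen_compl_singleton).mem_nhds ⟨hy, hne⟩) hsub
    exact h.filter_mono nhdsWithin_le_nhds

theorem mem_agreeSet_of_mem_closure {f : ℂ → ℂ} {x : ℂ} (hf : MeromorphicAt f x)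
    (hx : 0 < x.re) (hc : x ∈ closure (agreeSet f)) : x ∈ agreeSet f := by
  rcases (hf.sub (meromorphicOn_contP x hx)).eventually_eq_zero_or_eventually_ne_zero with h | h
  · exact h.mono fun z hz => sub_eq_zero.1 hz
  by_contra hnot
  obtain ⟨B, hB, hxB, hsub⟩ := mem_nhdsWithin.1 h
  obtain ⟨y, hyB, hy⟩ := mem_closure_iff.1 hc B hB hxB
  have hyx : y ≠ x := fun e => hnot (e ▸ hy)
  have h1 : ∀ᶠ z in 𝓝[≠] y, (f - contP) z ≠ 0 :=
    nhdsWithin_le_nhds
      (mem_of_superset ((hB.inter isOpen_compl_singleton).mem_nhds ⟨hyB, hyx⟩) hsub)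
  obtain ⟨z, hz1, hz2⟩ := (h1.and (hy : f =ᶠ[𝓝[≠] y] contP)).exists
  exact hz1 (sub_eq_zero.2 hz2)

theorem agree_on_of_isPreconnected {f : ℂ → ℂ} {V : Set ℂ} (hV : IsPreconnected V)
    (hpos : ∀ z ∈ V, 0 < z.re) (hf : MeromorphicOn f V) (hne : (V ∩ agreeSet f).Nonempty) :
    V ⊆ agreeSet f :=
  hV.subset_of_closure_inter_subset (isOpen_agreeSet f) hne fun x hx =>
    mem_agreeSet_of_mem_closure (hf x hx.2) (hpos x hx.2) hx.1

/-- Nothing meromorphic at a point of the imaginary axis agrees with the continuation nearby. -/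
theorem not_agree_near_axis {g : ℂ → ℂ} {t r : ℝ} (hr : 0 < r)
    (hg : MeromorphicAt g (t * I))
    (hagree : ∀ z ∈ ball (t * I : ℂ) r, 0 < z.re → z ∈ agreeSet g) : False := by
  obtain ⟨B, hB, hxB, hsub⟩ := mem_nhdsWithin.1 hg.eventually_analyticAt
  obtain ⟨δ, hδ, hδB⟩ := Metric.isOpen_iff.1 hB _ hxB
  obtain ⟨s, R, hR, hs, hd, hlim⟩ := exists_pole t (lt_min hr hδ)
  have hne : s ≠ t * I := fun e => by simp [e] at hs
  have ha : AnalyticAt ℂ g s := hsub ⟨hδB (mem_ball.2 (hd.trans_le (min_le_right _ _))), hne⟩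
  have h0 : Tendsto (fun z => (z - s) * g z) (𝓝[≠] s) (𝓝 0) := by
    have hc : ContinuousAt (fun z => (z - s) * g z) s :=
      (continuousAt_id.sub continuousAt_const).mul ha.continuousAt
    simpa using hc.tendsto.mono_left (nhdsWithin_le_nhds (s := {s}ᶜ))
  have he : g =ᶠ[𝓝[≠] s] contP := hagree s (mem_ball.2 (hd.trans_le (min_le_left _ _))) hs
  exact hR (tendsto_nhds_unique hlim (h0.congr' (he.mono fun z hz => by simp only [hz])))

/-- A connected domain of meromorphy of `P'` lies in `0 < re s`. -/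
theorem subset_re_pos {U : Set ℂ} (hU : IsOpen U) (hU' : IsPreconnected U) {h : ℂ → ℂ}
    (hh : MeromorphicOn h U) (hne : ∃ s ∈ U, 1 < s.re)
    (heq : ∀ s ∈ U, 1 < s.re → h s = deriv primeP s) : U ⊆ {s | 0 < s.re} := by
  obtain ⟨W, hW⟩ : ∃ W, W = agreeSet h ∩ {s : ℂ | 0 < s.re} := ⟨_, rfl⟩
  have hWo : IsOpen W := hW ▸ (isOpen_agreeSet h).inter (isOpen_lt continuous_const continuous_re)
  obtain ⟨s, hs, hs1⟩ := hne
  have hsW : s ∈ W := by
    refine hW ▸ ⟨EventuallyEq.filter_mono ?_ nhdsWithin_le_nhds, show 0 < s.re by linarith⟩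
    filter_upwards [hU.mem_nhds hs,
      (isOpen_lt continuous_const continuous_re).mem_nhds hs1] with z hz hz1
    rw [heq z hz hz1, contP_eq_deriv hz1]
  refine fun x hx => (hW ▸ hU'.subset_of_closure_inter_subset hWo ⟨s, hs, hsW⟩ ?_ hx :
    x ∈ agreeSet h ∩ {s : ℂ | 0 < s.re}).2
  rintro y ⟨hc, hy⟩
  have hsub : W ⊆ {z : ℂ | 0 ≤ z.re} := by
    rw [hW]
    exact fun z hz => show 0 ≤ z.re from le_of_lt hz.2
  have hy0 : 0 ≤ y.re := closure_minimal hsub (isClosed_le continuous_const continuous_re) hc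
  rcases hy0.lt_or_eq with hpos | hzero
  · exact hW ▸ ⟨mem_agreeSet_of_mem_closure (hh y hy) hpos
      (closure_mono (hW ▸ Set.inter_subset_left) hc), hpos⟩
  obtain ⟨r, hr, hrU⟩ := Metric.isOpen_iff.1 hU y hy
  have hey : y = (y.im : ℝ) * I := Complex.ext (by simp [← hzero]) (by simp)
  refine absurd (not_agree_near_axis hr (hey ▸ hh y hy) (g := h) fun z hz hz0 => ?_) id
  rw [← hey] at hz
  obtain ⟨w, hwb, hwW⟩ := mem_closure_iff.1 hc (ball y r) isOpen_ball (mem_ball_self hr)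
  rw [hW] at hwW
  refine agree_on_of_isPreconnected (V := ball y r ∩ {s : ℂ | 0 < s.re})
    ((convex_ball y r).inter (convex_halfSpace_re_gt 0)).isPreconnected (fun _ hv => hv.2)
    (fun v hv => hh v (hrU hv.1)) ⟨w, ⟨hwb, hwW.2⟩, hwW.1⟩ ⟨hz, hz0⟩

end FA.PrimeZeta
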